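/-
MAZUR / node [MZ-A], cell [A-LAT] (helper29), part (ii): the Weierstrass functions depend only on the
lattice, and are homogeneous.

Hypothesis `mza_la_IsScale c L L'` : `L'.lattice = c • L.lattice`, spelled
`∀ x, x ∈ L'.lattice ↔ ∃ l ∈ L.lattice, c * l = x`, with `c ≠ 0`.  Then
* `mza_la_P_scale`  : `℘[L'] (c * z) = (c ^ 2)⁻¹ * ℘[L] z`;
* `mza_la_dP_scale` : `℘'[L'] (c * z) = (c ^ 3)⁻¹ * ℘'[L] z`;
* `mza_la_G_scale`  : `L'.G n = (c ^ n)⁻¹ * L.G n`;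
* `mza_la_g₂_scale` : `L'.g₂ = (c ^ 4)⁻¹ * L.g₂`;  `mza_la_g₃_scale` : `L'.g₃ = (c ^ 6)⁻¹ * L.g₃`;
* `mza_la_disc_scale` : `g₂'³ - 27 g₃'² = (c ^ 12)⁻¹ (g₂³ - 27 g₃²)`;
* `c = 1`: `mza_la_P_congr`, `mza_la_dP_congr`, `mza_la_g₂_congr`, `mza_la_g₃_congr` (same lattice ⟹ same
  functions and invariants);
* `mza_la_mem_scale` : `c * z ∈ L'.lattice ↔ z ∈ L.lattice`.
Prefix `mza_la_`.
-/
import Mathlib

set_option autoImplicit false

noncomputable section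

open scoped PeriodPair

namespace Fermat.Agent.MZ

/-- `L'.lattice = c • L.lattice` -/
def mza_la_IsScale (c : ℂ) (L L' : PeriodPair) : Prop :=
  ∀ x : ℂ, x ∈ L'.lattice ↔ ∃ l ∈ L.lattice, c * l = x

variable {c : ℂ} {L L' : PeriodPair}

theorem mza_la_mem_scale (hc : c ≠ 0) (h : mza_la_IsScale c L L') (z : ℂ) :
    c * z ∈ L'.lattice ↔ z ∈ L.lattice := by
  rw [h]
  constructor
  · rintro ⟨l, hl, hlz⟩
    rwa [← mul_left_cancel₀ hc hlz]
  · intro hz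
    exact ⟨z, hz, rfl⟩

/-- the bijection `l ↦ c l` between the lattices -/
def mza_la_scaleEquiv (hc : c ≠ 0) (h : mza_la_IsScale c L L') : L.lattice ≃ L'.lattice where
  toFun l := ⟨c * l, (h _).2 ⟨l, l.2, rfl⟩⟩
  invFun l' := ⟨c⁻¹ * l', by
    obtain ⟨l, hl, hl'⟩ := (h _).1 l'.2
    rw [← hl', inv_mul_cancel_left₀ hc]
    exact hl⟩
  left_inv l := by
    apply Subtype.ext
    show c⁻¹ * (c * (l : ℂ)) = l
    rw [inv_mul_cancel_left₀ hc]
  right_inv l' := by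
    apply Subtype.ext
    show c * (c⁻¹ * (l' : ℂ)) = l'
    rw [mul_inv_cancel_left₀ hc]

@[simp] theorem mza_la_scaleEquiv_coe (hc : c ≠ 0) (h : mza_la_IsScale c L L') (l : L.lattice) :
    ((mza_la_scaleEquiv hc h l : L'.lattice) : ℂ) = c * l := rfl

theorem mza_la_P_scale (hc : c ≠ 0) (h : mza_la_IsScale c L L') (z : ℂ) :
    ℘[L'] (c * z) = (c ^ 2)⁻¹ * ℘[L] z := by
  unfold PeriodPair.weierstrassP
  rw [← (mza_la_scaleEquiv hc h).tsum_eq, ← tsum_mul_left]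
  refine tsum_congr fun l => ?_
  rw [mza_la_scaleEquiv_coe, ← mul_sub, mul_pow, mul_pow]
  by_cases h1 : (z - (l : ℂ)) = 0
  · rw [h1]
    by_cases h2 : (l : ℂ) = 0
    · rw [h2]; simp
    · field_simp
  · by_cases h2 : (l : ℂ) = 0
    · rw [h2]
      field_simp
    · field_simp

theorem mza_la_dP_scale (hc : c ≠ 0) (h : mza_la_IsScale c L L') (z : ℂ) :
    ℘'[L'] (c * z) = (c ^ 3)⁻¹ * ℘'[L] z := by
  unfold PeriodPair.derivWeierstrassP
  rw [← (mza_la_scaleEquiv hc h).tsum_eq, mul_neg, ← tsum_mul_left]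
  congr 1
  refine tsum_congr fun l => ?_
  rw [mza_la_scaleEquiv_coe, ← mul_sub, mul_pow]
  by_cases h1 : (z - (l : ℂ)) = 0
  · rw [h1]; simp
  · field_simp

theorem mza_la_G_scale (hc : c ≠ 0) (h : mza_la_IsScale c L L') (n : ℕ) :
    L'.G n = (c ^ n)⁻¹ * L.G n := by
  unfold PeriodPair.G
  rw [← (mza_la_scaleEquiv hc h).tsum_eq, ← tsum_mul_left]
  refine tsum_congr fun l => ?_
  rw [mza_la_scaleEquiv_coe, mul_pow, mul_inv]

theorem mza_la_g₂_scale (hc : c ≠ 0) (h : mza_la_IsScale c L L') :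
    L'.g₂ = (c ^ 4)⁻¹ * L.g₂ := by
  unfold PeriodPair.g₂
  rw [mza_la_G_scale hc h]
  ring

theorem mza_la_g₃_scale (hc : c ≠ 0) (h : mza_la_IsScale c L L') :
    L'.g₃ = (c ^ 6)⁻¹ * L.g₃ := by
  unfold PeriodPair.g₃
  rw [mza_la_G_scale hc h]
  ring

theorem mza_la_disc_scale (hc : c ≠ 0) (h : mza_la_IsScale c L L') :
    L'.g₂ ^ 3 - 27 * L'.g₃ ^ 2 = (c ^ 12)⁻¹ * (L.g₂ ^ 3 - 27 * L.g₃ ^ 2) := by
  rw [mza_la_g₂_scale hc h, mza_la_g₃_scale hc h]
  field_simp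

/-- same lattice: `IsScale 1` -/
theorem mza_la_isScale_one (h : L.lattice = L'.lattice) : mza_la_IsScale 1 L L' := by
  intro x
  rw [← h]
  constructor
  · intro hx
    exact ⟨x, hx, one_mul x⟩
  · rintro ⟨l, hl, rfl⟩
    rwa [one_mul]

theorem mza_la_P_congr (h : L.lattice = L'.lattice) (z : ℂ) : ℘[L'] z = ℘[L] z := by
  have := mza_la_P_scale one_ne_zero (mza_la_isScale_one h) z
  simpa using this

theorem mza_la_dP_congr (h : L.lattice = L'.lattice) (z : ℂ) : ℘'[L'] z = ℘'[L] z := by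
  have := mza_la_dP_scale one_ne_zero (mza_la_isScale_one h) z
  simpa using this

theorem mza_la_g₂_congr (h : L.lattice = L'.lattice) : L'.g₂ = L.g₂ := by
  have := mza_la_g₂_scale one_ne_zero (mza_la_isScale_one h)
  simpa using this

theorem mza_la_g₃_congr (h : L.lattice = L'.lattice) : L'.g₃ = L.g₃ := by
  have := mza_la_g₃_scale one_ne_zero (mza_la_isScale_one h)
  simpa using this

end Fermat.Agent.MZ
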