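/-
MAZUR / node [MZ-A], cell [A-LAT] (helper29), part (iii): moving a point of order `p` to `1/p`.

* `mza_la_lift_coprime` : a vector `(a, b) ∈ ℤ²` not divisible by the prime `p` is congruent mod `p`
  to the first row of a matrix of `SL₂(ℤ)`;
* `mza_la_basis` : `L` a period pair, `z ∉ L.lattice`, `p z ∈ L.lattice` (`p` prime) ⟹
  `∃ τ' : ℍ, ∃ c ≠ 0`, `L.lattice = c • (ℤ + ℤ τ')` (`mza_la_IsScale c (mza_Ltau τ') L`) and
  `z - c / p ∈ L.lattice`;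
* `mza_la_exists_tau` : every lattice is `c • (ℤ + ℤ τ')` (no point).
Prefix `mza_la_`.
-/
import Mathlib
import Fermat.Agent.MZ.A.Defs
import Fermat.Agent.MZ.A.Lat.Homog

set_option autoImplicit false

noncomputable section

open UpperHalfPlane Complex

namespace Fermat.Agent.MZ

/-- lifting a nonzero vector mod `p` to the first row of a matrix of determinant one -/
theorem mza_la_lift_coprime (p : ℕ) (hp : p.Prime) (a b : ℤ)
    (hab : ¬ ((p : ℤ) ∣ a ∧ (p : ℤ) ∣ b)) :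
    ∃ a' b' c' d' : ℤ, a' * d' - b' * c' = 1 ∧ (p : ℤ) ∣ a' - a ∧ (p : ℤ) ∣ b' - b := by
  have hne : a ≠ 0 ∨ b ≠ 0 := by
    by_contra h
    rw [not_or, not_not, not_not] at h
    exact hab ⟨h.1 ▸ dvd_zero _, h.2 ▸ dvd_zero _⟩
  obtain ⟨a₀, b₀, h0, ha, hb⟩ := Int.exists_gcd_one (Int.gcd_pos_iff.2 hne)
  set g : ℕ := Int.gcd a b with hg
  have hpg : ¬ p ∣ g := by
    intro hd
    have hd' : (p : ℤ) ∣ (g : ℤ) := by exact_mod_cast hd
    exact hab ⟨hd'.trans (Int.gcd_dvd_left a b), hd'.trans (Int.gcd_dvd_right a b)⟩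
  have hcop : IsCoprime (p : ℤ) (g : ℤ) :=
    Nat.isCoprime_iff_coprime.2 ((Nat.Prime.coprime_iff_not_dvd hp).2 hpg)
  obtain ⟨y, x, h2⟩ := hcop
  obtain ⟨u, v, h1⟩ := Int.isCoprime_iff_gcd_eq_one.2 h0
  refine ⟨a + p * (-v), b + p * u, -y * a₀ + x * (-v), -y * b₀ + x * u, ?_, ?_, ?_⟩
  · linear_combination (-y * b₀ + x * u) * ha - (-y * a₀ + x * (-v)) * hb
      + ((g : ℤ) * x + p * y) * h1 + h2
  · exact ⟨-v, by ring⟩
  · exact ⟨u, by ring⟩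

/-- a unimodular change of basis of a period pair, normalised: `L.lattice = c • (ℤ + ℤ τ')` with
`c = a' ω₁ + b' ω₂` the first new basis vector -/
theorem mza_la_exists_tau_of_det (L : PeriodPair) (a' b' c' d' : ℤ) (hdet : a' * d' - b' * c' = 1) :
    ∃ τ' : ℍ, (a' : ℂ) * L.ω₁ + b' * L.ω₂ ≠ 0 ∧
      mza_la_IsScale ((a' : ℂ) * L.ω₁ + b' * L.ω₂) (mza_Ltau τ') L := by
  have hind := LinearIndependent.pair_iff.1 L.indep
  set w₁ : ℂ := (a' : ℂ) * L.ω₁ + b' * L.ω₂ with hw₁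
  set w₂ : ℂ := (c' : ℂ) * L.ω₁ + d' * L.ω₂ with hw₂
  have hdetC : (a' : ℂ) * d' - b' * c' = 1 := by exact_mod_cast hdet
  have hω₁ : L.ω₁ = (d' : ℂ) * w₁ - b' * w₂ := by
    rw [hw₁, hw₂]; linear_combination (-L.ω₁) * hdetC
  have hω₂ : L.ω₂ = -(c' : ℂ) * w₁ + a' * w₂ := by
    rw [hw₁, hw₂]; linear_combination (-L.ω₂) * hdetC
  have hw₁0 : w₁ ≠ 0 := by
    intro h
    have h' : ((a' : ℝ)) • L.ω₁ + ((b' : ℝ)) • L.ω₂ = 0 := by
      rw [Complex.real_smul, Complex.real_smul]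
      push_cast
      exact h
    obtain ⟨h1, h2⟩ := hind _ _ h'
    have h1' : a' = 0 := by exact_mod_cast h1
    have h2' : b' = 0 := by exact_mod_cast h2
    rw [h1', h2'] at hdet
    simp at hdet
  -- the ratio is not real
  have him : (w₂ / w₁).im ≠ 0 := by
    intro h
    set t : ℝ := (w₂ / w₁).re with ht
    have hw : w₂ = (t : ℂ) * w₁ := by
      have : w₂ / w₁ = (t : ℂ) := by
        apply Complex.ext
        · simp [ht]
        · simp [h]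
      rw [← this, div_mul_cancel₀ _ hw₁0]
    have e1 : L.ω₁ = (((d' : ℝ) - b' * t : ℝ) : ℂ) * w₁ := by
      rw [hω₁, hw]; push_cast; ring
    have e2 : L.ω₂ = (((-(c' : ℝ)) + a' * t : ℝ) : ℂ) * w₁ := by
      rw [hω₂, hw]; push_cast; ring
    have h' : ((-(c' : ℝ)) + a' * t) • L.ω₁ + (-((d' : ℝ) - b' * t)) • L.ω₂ = 0 := by
      rw [Complex.real_smul, Complex.real_smul]
      nth_rw 1 [e1]
      nth_rw 1 [e2]
      push_cast
      ring
    obtain ⟨h1, h2⟩ := hind _ _ h'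
    have hdetR : (a' : ℝ) * d' - b' * c' = 1 := by exact_mod_cast hdet
    have : (a' : ℝ) * d' - b' * c' = 0 := by
      have h2' : (d' : ℝ) - b' * t = 0 := by linarith
      linear_combination (a' : ℝ) * h2' + (b' : ℝ) * h1
    rw [this] at hdetR
    exact zero_ne_one hdetR
  -- choose the sign
  rcases lt_or_gt_of_ne him with hneg | hpos
  · -- `τ' = - w₂ / w₁`
    have hpos' : 0 < (-(w₂ / w₁)).im := by simpa using hneg
    refine ⟨⟨-(w₂ / w₁), hpos'⟩, hw₁0, fun x => ?_⟩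
    rw [PeriodPair.mem_lattice]
    constructor
    · rintro ⟨m, n, rfl⟩
      refine ⟨((m * d' - n * c' : ℤ) : ℂ) + ((m * b' - n * a' : ℤ) : ℂ) * (-(w₂ / w₁)),
        mza_mem_Ltau.2 ⟨_, _, rfl⟩, ?_⟩
      rw [hω₁, hω₂]
      push_cast
      field_simp
      ring
    · rintro ⟨l, hl, rfl⟩
      obtain ⟨m, n, rfl⟩ := mza_mem_Ltau.1 hl
      refine ⟨m * a' - n * c', m * b' - n * d', ?_⟩
      show _ = w₁ * ((m : ℂ) + n * (-(w₂ / w₁)))
      push_cast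
      field_simp
      rw [hw₁, hw₂]
      ring
  · refine ⟨⟨w₂ / w₁, hpos⟩, hw₁0, fun x => ?_⟩
    rw [PeriodPair.mem_lattice]
    constructor
    · rintro ⟨m, n, rfl⟩
      refine ⟨((m * d' - n * c' : ℤ) : ℂ) + ((-(m * b') + n * a' : ℤ) : ℂ) * (w₂ / w₁),
        mza_mem_Ltau.2 ⟨_, _, rfl⟩, ?_⟩
      rw [hω₁, hω₂]
      push_cast
      field_simp
      ring
    · rintro ⟨l, hl, rfl⟩
      obtain ⟨m, n, rfl⟩ := mza_mem_Ltau.1 hl
      refine ⟨m * a' + n * c', m * b' + n * d', ?_⟩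
      show _ = w₁ * ((m : ℂ) + n * (w₂ / w₁))
      push_cast
      field_simp
      rw [hw₁, hw₂]
      ring

/-- every lattice is homothetic to some `ℤ + ℤ τ'` -/
theorem mza_la_exists_tau (L : PeriodPair) :
    ∃ (τ' : ℍ) (c : ℂ), c ≠ 0 ∧ mza_la_IsScale c (mza_Ltau τ') L := by
  obtain ⟨τ', h0, h⟩ := mza_la_exists_tau_of_det L 1 0 0 1 (by norm_num)
  exact ⟨τ', _, h0, h⟩

/-- **(iii)** a point of exact order `p` modulo `L` is `c / p` for a suitable normalisation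
`L = c • (ℤ + ℤ τ')` -/
theorem mza_la_basis (L : PeriodPair) (p : ℕ) (hp : p.Prime) (z : ℂ) (hz : z ∉ L.lattice)
    (hpz : (p : ℂ) * z ∈ L.lattice) :
    ∃ (τ' : ℍ) (c : ℂ), c ≠ 0 ∧ mza_la_IsScale c (mza_Ltau τ') L ∧ z - c / p ∈ L.lattice := by
  have hp0 : (p : ℂ) ≠ 0 := by exact_mod_cast hp.ne_zero
  obtain ⟨a, b, hab⟩ := PeriodPair.mem_lattice.1 hpz
  have hnd : ¬ ((p : ℤ) ∣ a ∧ (p : ℤ) ∣ b) := by
    rintro ⟨⟨a₁, rfl⟩, ⟨b₁, rfl⟩⟩
    apply hz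
    rw [PeriodPair.mem_lattice]
    refine ⟨a₁, b₁, ?_⟩
    apply mul_left_cancel₀ hp0
    rw [← hab]
    push_cast
    ring
  obtain ⟨a', b', c', d', hdet, ⟨s, hs⟩, ⟨t, ht⟩⟩ := mza_la_lift_coprime p hp a b hnd
  obtain ⟨τ', h0, hsc⟩ := mza_la_exists_tau_of_det L a' b' c' d' hdet
  refine ⟨τ', _, h0, hsc, ?_⟩
  rw [PeriodPair.mem_lattice]
  refine ⟨-s, -t, ?_⟩
  have hs' : (a' : ℂ) - a = p * s := by exact_mod_cast hs
  have ht' : (b' : ℂ) - b = p * t := by exact_mod_cast ht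
  apply mul_left_cancel₀ hp0
  rw [mul_sub, mul_div_cancel₀ _ hp0, ← hab]
  push_cast
  linear_combination L.ω₁ * hs' + L.ω₂ * ht'

end Fermat.Agent.MZ
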