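/-
MAZUR / node [MZ-A], cell [A-LAT] (helper29), part (i): the invariants of the lattice `L_τ = ℤ + ℤ τ`
(`mza_Ltau τ` of `MZ/A/Defs.lean`).

* `mza_la_G τ hk` : `(L_τ).G k = 2 ζ(k) E_k(τ)` (`k ≥ 3`);
* `mza_la_g₂ τ` : `g₂(L_τ) = (4/3) π⁴ E₄(τ)`;  `mza_la_g₃ τ` : `g₃(L_τ) = (8/27) π⁶ E₆(τ)`;
* `mza_la_disc τ` : `g₂³ - 27 g₃² = (2π)¹² Δ(τ)` (`Δ = ModularForm.discriminant`), `mza_la_disc_ne_zero`;
* `mza_la_j τ` : `1728 g₂³ / (g₂³ - 27 g₃²) = E₄(τ)³/Δ(τ)`; `mza_la_kleinJ` : `… = kleinJ τ` (S24).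
Prefix `mza_la_`.
-/
import Mathlib
import Fermat.Agent.MZ.A.Defs
import Fermat.Agent.S24.KleinJ

set_option autoImplicit false

noncomputable section

open UpperHalfPlane ModularForm EisensteinSeries Complex
open scoped Real

namespace Fermat.Agent.MZ

/-- the lattice sum of `L_τ` as a sum over `Fin 2 → ℤ` -/
theorem mza_la_G_eq_tsum (τ : ℍ) (k : ℕ) :
    (mza_Ltau τ).G k = ∑' v : Fin 2 → ℤ, eisSummand k v τ := by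
  unfold PeriodPair.G
  rw [← (mza_Ltau τ).latticeEquivProd.symm.toEquiv.tsum_eq]
  rw [← (Equiv.prodComm ℤ ℤ).tsum_eq, ← (finTwoArrowEquiv ℤ).tsum_eq]
  refine tsum_congr fun v => ?_
  simp only [LinearEquiv.coe_toEquiv, Equiv.prodComm_apply, finTwoArrowEquiv_apply,
    PeriodPair.latticeEquiv_symm_apply, mza_Ltau_ω₁, mza_Ltau_ω₂, mul_one,
    eisSummand, zpow_neg, zpow_natCast]
  congr 2
  show ((v 1 : ℤ) : ℂ) + ((v 0 : ℤ) : ℂ) * (τ : ℂ) = _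
  ring

/-- `G_k(L_τ) = 2 ζ(k) E_k(τ)` -/
theorem mza_la_G (τ : ℍ) {k : ℕ} (hk : 3 ≤ k) :
    (mza_Ltau τ).G k = 2 * riemannZeta k * E hk τ := by
  rw [mza_la_G_eq_tsum, tsum_eisSummand_eq_riemannZeta_mul_eisensteinSeries hk τ]
  rw [show E hk τ = (1 / 2 : ℂ) • eisensteinSeriesSIF (N := 1) 0 k τ from rfl,
    eisensteinSeriesSIF_apply, smul_eq_mul]
  ring

theorem mza_la_zeta_six : riemannZeta 6 = (π : ℂ) ^ 6 / 945 := by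
  have h := riemannZeta_two_mul_nat (k := 3) (by norm_num)
  have hb : bernoulli 6 = 1 / 42 := by decide +kernel
  norm_num at h
  rw [h, hb]
  norm_num [Nat.factorial]
  ring

/-- `g₂(L_τ) = (4/3) π⁴ E₄(τ)` -/
theorem mza_la_g₂ (τ : ℍ) : (mza_Ltau τ).g₂ = 4 / 3 * (π : ℂ) ^ 4 * E₄ τ := by
  unfold PeriodPair.g₂
  rw [mza_la_G τ (by norm_num : 3 ≤ 4)]
  have h4 : riemannZeta ((4 : ℕ) : ℂ) = (π : ℂ) ^ 4 / 90 := by
    have := riemannZeta_four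
    simpa using this
  rw [h4]
  ring

/-- `g₃(L_τ) = (8/27) π⁶ E₆(τ)` -/
theorem mza_la_g₃ (τ : ℍ) : (mza_Ltau τ).g₃ = 8 / 27 * (π : ℂ) ^ 6 * E₆ τ := by
  unfold PeriodPair.g₃
  rw [mza_la_G τ (by norm_num : 3 ≤ 6)]
  have h6 : riemannZeta ((6 : ℕ) : ℂ) = (π : ℂ) ^ 6 / 945 := by
    have := mza_la_zeta_six
    simpa using this
  rw [h6]
  ring

/-- `Δ(L_τ) = g₂³ - 27 g₃² = (2π)¹² Δ(τ)` -/
theorem mza_la_disc (τ : ℍ) :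
    (mza_Ltau τ).g₂ ^ 3 - 27 * (mza_Ltau τ).g₃ ^ 2
      = (2 * (π : ℂ)) ^ 12 * ModularForm.discriminant τ := by
  rw [mza_la_g₂, mza_la_g₃, discriminant_eq_E₄_cube_sub_E₆_sq]
  ring

theorem mza_la_disc_ne_zero (τ : ℍ) :
    (mza_Ltau τ).g₂ ^ 3 - 27 * (mza_Ltau τ).g₃ ^ 2 ≠ 0 := by
  rw [mza_la_disc]
  refine mul_ne_zero (pow_ne_zero _ (mul_ne_zero two_ne_zero ?_)) (discriminant_ne_zero τ)
  exact_mod_cast Real.pi_ne_zero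

/-- `j(L_τ) = 1728 g₂³/(g₂³ - 27 g₃²) = E₄(τ)³/Δ(τ)` -/
theorem mza_la_j (τ : ℍ) :
    1728 * (mza_Ltau τ).g₂ ^ 3 / ((mza_Ltau τ).g₂ ^ 3 - 27 * (mza_Ltau τ).g₃ ^ 2)
      = E₄ τ ^ 3 / ModularForm.discriminant τ := by
  have hπ : (π : ℂ) ≠ 0 := by exact_mod_cast Real.pi_ne_zero
  have hΔ := discriminant_ne_zero τ
  rw [mza_la_disc, mza_la_g₂]
  field_simp
  ring

/-- the same with the name `kleinJ` of S24 -/
theorem mza_la_kleinJ (τ : ℍ) :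
    1728 * (mza_Ltau τ).g₂ ^ 3 / ((mza_Ltau τ).g₂ ^ 3 - 27 * (mza_Ltau τ).g₃ ^ 2)
      = Fermat.Agent.S24.kleinJ τ := mza_la_j τ

end Fermat.Agent.MZ
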