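/-
MAZUR / node [MZ-A] → [MZ-J] (helper29): EVERY PAIR `(g₂, g₃)` WITH `g₂³ - 27 g₃² ≠ 0` COMES FROM A LATTICE.

* `mza_la_scalePair hc L : PeriodPair` : the pair `(c ω₁, c ω₂)`; `mza_la_isScale_scalePair`;
* `mza_la_exists a b (h : a³ - 27 b² ≠ 0) : ∃ L : PeriodPair, L.g₂ = a ∧ L.g₃ = b`
  (`kleinJ` is surjective, S24 `jl_exists_kleinJ_eq`, + homogeneity `Lat/Homog.lean`);
* `mza_la_exists_short` : every short Weierstrass curve `Y² = X³ + A X + B` over `ℂ` with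
  `4A³ + 27B² ≠ 0` is `Y² = X³ - g₂/4 X - g₃/4` for some lattice.
Prefix `mza_la_`.
-/
import Mathlib
import Fermat.Agent.MZ.A.Defs
import Fermat.Agent.MZ.A.Lat.Tau
import Fermat.Agent.MZ.A.Lat.Homog
import Fermat.Agent.S24.JLocal

set_option autoImplicit false

noncomputable section

open UpperHalfPlane Complex

namespace Fermat.Agent.MZ

/-- the scaled period pair `(c ω₁, c ω₂)` -/
def mza_la_scalePair {c : ℂ} (hc : c ≠ 0) (L : PeriodPair) : PeriodPair where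
  ω₁ := c * L.ω₁
  ω₂ := c * L.ω₂
  indep := by
    have hind := LinearIndependent.pair_iff.1 L.indep
    rw [LinearIndependent.pair_iff]
    intro s t h
    apply hind s t
    rw [Complex.real_smul, Complex.real_smul] at h ⊢
    have h' : c * ((s : ℂ) * L.ω₁ + (t : ℂ) * L.ω₂) = 0 := by
      rw [← h]; ring
    rcases mul_eq_zero.1 h' with h0 | h0
    · exact absurd h0 hc
    · exact h0

theorem mza_la_isScale_scalePair {c : ℂ} (hc : c ≠ 0) (L : PeriodPair) :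
    mza_la_IsScale c L (mza_la_scalePair hc L) := by
  intro x
  rw [PeriodPair.mem_lattice]
  constructor
  · rintro ⟨m, n, rfl⟩
    refine ⟨(m : ℂ) * L.ω₁ + n * L.ω₂, PeriodPair.mem_lattice.2 ⟨m, n, rfl⟩, ?_⟩
    show c * ((m : ℂ) * L.ω₁ + n * L.ω₂) = (m : ℂ) * (c * L.ω₁) + n * (c * L.ω₂)
    ring
  · rintro ⟨l, hl, rfl⟩
    obtain ⟨m, n, rfl⟩ := PeriodPair.mem_lattice.1 hl
    refine ⟨m, n, ?_⟩
    show (m : ℂ) * (c * L.ω₁) + n * (c * L.ω₂) = c * ((m : ℂ) * L.ω₁ + n * L.ω₂)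
    ring

/-- **existence of a lattice with prescribed invariants** -/
theorem mza_la_exists (a b : ℂ) (h : a ^ 3 - 27 * b ^ 2 ≠ 0) :
    ∃ L : PeriodPair, L.g₂ = a ∧ L.g₃ = b := by
  obtain ⟨τ, hτ⟩ := Fermat.Agent.S24.jl_exists_kleinJ_eq (1728 * a ^ 3 / (a ^ 3 - 27 * b ^ 2))
  set G₂ : ℂ := (mza_Ltau τ).g₂ with hG₂
  set G₃ : ℂ := (mza_Ltau τ).g₃ with hG₃
  have hD : G₂ ^ 3 - 27 * G₃ ^ 2 ≠ 0 := mza_la_disc_ne_zero τ
  have hJ : 1728 * G₂ ^ 3 / (G₂ ^ 3 - 27 * G₃ ^ 2) = 1728 * a ^ 3 / (a ^ 3 - 27 * b ^ 2) := by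
    rw [← hτ]; exact mza_la_kleinJ τ
  -- the key relation
  have hrel : G₂ ^ 3 * b ^ 2 = a ^ 3 * G₃ ^ 2 := by
    rw [div_eq_div_iff hD h] at hJ
    linear_combination (-1 / (1728 * 27) : ℂ) * hJ
  -- it suffices to find the scaling factor
  suffices hc : ∃ c : ℂ, c ≠ 0 ∧ (c ^ 4)⁻¹ * G₂ = a ∧ (c ^ 6)⁻¹ * G₃ = b by
    obtain ⟨c, hc0, h2, h3⟩ := hc
    refine ⟨mza_la_scalePair hc0 (mza_Ltau τ), ?_, ?_⟩
    · rw [mza_la_g₂_scale hc0 (mza_la_isScale_scalePair hc0 _)]; exact h2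
    · rw [mza_la_g₃_scale hc0 (mza_la_isScale_scalePair hc0 _)]; exact h3
  by_cases ha : a = 0
  · -- `a = 0`: then `G₂ = 0`, `b ≠ 0`, `G₃ ≠ 0`
    have hb : b ≠ 0 := by
      rintro rfl
      apply h
      rw [ha]; ring
    have hG₂0 : G₂ = 0 := by
      have h1 : G₂ ^ 3 * b ^ 2 = 0 := by rw [hrel, ha]; ring
      rcases mul_eq_zero.1 h1 with h2 | h2
      · exact pow_eq_zero_iff (by norm_num) |>.1 h2
      · exact absurd (pow_eq_zero_iff (by norm_num) |>.1 h2) hb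
    have hG₃0 : G₃ ≠ 0 := by
      intro h3
      apply hD
      rw [hG₂0, h3]; ring
    obtain ⟨c, hc⟩ := IsAlgClosed.exists_pow_nat_eq (G₃ / b) (n := 6) (by norm_num)
    have hc0 : c ≠ 0 := by
      rintro rfl
      rw [zero_pow (by norm_num)] at hc
      exact div_ne_zero hG₃0 hb hc.symm
    refine ⟨c, hc0, ?_, ?_⟩
    · rw [hG₂0, ha, mul_zero]
    · rw [hc]
      field_simp
  · by_cases hb : b = 0
    · -- `b = 0`: then `G₃ = 0`, `G₂ ≠ 0`
      have hG₃0 : G₃ = 0 := by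
        have h1 : a ^ 3 * G₃ ^ 2 = 0 := by rw [← hrel, hb]; ring
        rcases mul_eq_zero.1 h1 with h2 | h2
        · exact absurd (pow_eq_zero_iff (by norm_num) |>.1 h2) ha
        · exact pow_eq_zero_iff (by norm_num) |>.1 h2
      have hG₂0 : G₂ ≠ 0 := by
        intro h2
        apply hD
        rw [hG₃0, h2]; ring
      obtain ⟨c, hc⟩ := IsAlgClosed.exists_pow_nat_eq (G₂ / a) (n := 4) (by norm_num)
      have hc0 : c ≠ 0 := by
        rintro rfl
        rw [zero_pow (by norm_num)] at hc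
        exact div_ne_zero hG₂0 ha hc.symm
      refine ⟨c, hc0, ?_, ?_⟩
      · rw [hc]
        field_simp
      · rw [hG₃0, hb, mul_zero]
    · -- generic case
      have hG₂0 : G₂ ≠ 0 := by
        intro h2
        have h1 : a ^ 3 * G₃ ^ 2 = 0 := by rw [← hrel, h2]; ring
        rcases mul_eq_zero.1 h1 with h3 | h3
        · exact ha (pow_eq_zero_iff (by norm_num) |>.1 h3)
        · apply hD
          rw [h2, pow_eq_zero_iff (by norm_num) |>.1 h3]; ring
      have hG₃0 : G₃ ≠ 0 := by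
        intro h3
        have h1 : G₂ ^ 3 * b ^ 2 = 0 := by rw [hrel, h3]; ring
        rcases mul_eq_zero.1 h1 with h2 | h2
        · exact hG₂0 (pow_eq_zero_iff (by norm_num) |>.1 h2)
        · exact hb (pow_eq_zero_iff (by norm_num) |>.1 h2)
      obtain ⟨c, hc⟩ := IsAlgClosed.exists_pow_nat_eq (a * G₃ / (b * G₂)) (n := 2) (by norm_num)
      have hc0 : c ≠ 0 := by
        rintro rfl
        rw [zero_pow (by norm_num)] at hc
        exact div_ne_zero (mul_ne_zero ha hG₃0) (mul_ne_zero hb hG₂0) hc.symm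
      have hc4 : c ^ 4 = (a * G₃ / (b * G₂)) ^ 2 := by rw [← hc]; ring
      have hc6 : c ^ 6 = (a * G₃ / (b * G₂)) ^ 3 := by rw [← hc]; ring
      refine ⟨c, hc0, ?_, ?_⟩
      · rw [hc4]
        field_simp
        linear_combination hrel
      · rw [hc6]
        field_simp
        linear_combination hrel

/-- every short Weierstrass equation over `ℂ` with nonzero discriminant comes from a lattice -/
theorem mza_la_exists_short (A B : ℂ) (h : 4 * A ^ 3 + 27 * B ^ 2 ≠ 0) :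
    ∃ L : PeriodPair, -L.g₂ / 4 = A ∧ -L.g₃ / 4 = B := by
  obtain ⟨L, h2, h3⟩ := mza_la_exists (-4 * A) (-4 * B) (by
    intro h0
    apply h
    linear_combination (-1 / 16 : ℂ) * h0)
  exact ⟨L, by rw [h2]; ring, by rw [h3]; ring⟩

end Fermat.Agent.MZ
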