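/-
MAZUR / [MZ-A] → [MZ-J] analytic Vélu, cell (A2) (helper29): THE SUPERLATTICE `L' = L + ℤ z₁` AS A
`PeriodPair`.

* `mza_la_sup` : `L` a period pair, `p` prime, `z₁ ∉ L.lattice`, `p z₁ ∈ L.lattice` ⟹ there is a period
  pair `L'` with `x ∈ L'.lattice ↔ ∃ k : ℤ, x - k z₁ ∈ L.lattice`, `L.lattice ≤ L'.lattice`,
  `z₁ ∈ L'.lattice`, and `k z₁ ∉ L.lattice` for `0 < k < p`.
Prefix `mza_la_`.
-/
import Mathlib
import Fermat.Agent.MZ.A.Defs
import Fermat.Agent.MZ.A.Lat.Homog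
import Fermat.Agent.MZ.A.Lat.Basis

set_option autoImplicit false

noncomputable section

open UpperHalfPlane Complex

namespace Fermat.Agent.MZ

/-- the period pair `(c / p, c τ)` -/
def mza_la_supPair {c : ℂ} (hc : c ≠ 0) {p : ℕ} (hp : p ≠ 0) (τ : ℍ) : PeriodPair where
  ω₁ := c / p
  ω₂ := c * (τ : ℂ)
  indep := by
    have hp' : (p : ℂ) ≠ 0 := by exact_mod_cast hp
    have hind := LinearIndependent.pair_iff.1 (mza_Ltau τ).indep
    rw [LinearIndependent.pair_iff]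
    intro s t h
    have h1 := hind (s / p) t (by
      rw [Complex.real_smul, Complex.real_smul] at h ⊢
      simp only [mza_Ltau_ω₁, mza_Ltau_ω₂, mul_one]
      have h' : c * (((s / p : ℝ) : ℂ) + (t : ℂ) * (τ : ℂ)) = 0 := by
        rw [← h]
        push_cast
        field_simp
      rcases mul_eq_zero.1 h' with h0 | h0
      · exact absurd h0 hc
      · exact h0)
    refine ⟨?_, h1.2⟩
    have hpR : (p : ℝ) ≠ 0 := by exact_mod_cast hp
    have := h1.1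
    rcases div_eq_zero_iff.1 this with h2 | h2
    · exact h2
    · exact absurd h2 hpR

/-- **the superlattice** -/
theorem mza_la_sup (L : PeriodPair) (p : ℕ) (hp : p.Prime) (z₁ : ℂ) (hz₁ : z₁ ∉ L.lattice)
    (hpz : (p : ℂ) * z₁ ∈ L.lattice) :
    ∃ L' : PeriodPair, (∀ x : ℂ, x ∈ L'.lattice ↔ ∃ k : ℤ, x - k * z₁ ∈ L.lattice) ∧
      L.lattice ≤ L'.lattice ∧ z₁ ∈ L'.lattice ∧
      ∀ k : ℕ, 0 < k → k < p → (k : ℂ) * z₁ ∉ L.lattice := by
  have hp0 : (p : ℂ) ≠ 0 := by exact_mod_cast hp.ne_zero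
  obtain ⟨τ', c, hc, hsc, hzc⟩ := mza_la_basis L p hp z₁ hz₁ hpz
  have hcτ : c * (τ' : ℂ) ∈ L.lattice :=
    (hsc _).2 ⟨(τ' : ℂ), mza_mem_Ltau.2 ⟨0, 1, by push_cast; ring⟩, rfl⟩
  have hcL : c ∈ L.lattice :=
    (hsc _).2 ⟨1, mza_mem_Ltau.2 ⟨1, 0, by push_cast; ring⟩, mul_one c⟩
  have hmain : ∀ x : ℂ, x ∈ (mza_la_supPair hc hp.ne_zero τ').lattice ↔
      ∃ k : ℤ, x - k * z₁ ∈ L.lattice := by
    intro x
    rw [PeriodPair.mem_lattice]
    constructor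
    · rintro ⟨m, n, rfl⟩
      refine ⟨m, ?_⟩
      show (m : ℂ) * (c / p) + n * (c * (τ' : ℂ)) - m * z₁ ∈ L.lattice
      have e : (m : ℂ) * (c / p) + n * (c * (τ' : ℂ)) - m * z₁
          = -((m : ℤ) • (z₁ - c / p)) + (n : ℤ) • (c * (τ' : ℂ)) := by
        simp only [zsmul_eq_mul]
        ring
      rw [e]
      exact L.lattice.add_mem (L.lattice.neg_mem (L.lattice.smul_mem _ hzc))
        (L.lattice.smul_mem _ hcτ)
    · rintro ⟨k, hk⟩
      obtain ⟨l, hl, hlx⟩ := (hsc _).1 hk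
      obtain ⟨m, n, rfl⟩ := mza_mem_Ltau.1 hl
      obtain ⟨l₀, hl₀, hlz⟩ := (hsc _).1 hzc
      obtain ⟨m₀, n₀, rfl⟩ := mza_mem_Ltau.1 hl₀
      refine ⟨k + p * k * m₀ + p * m, k * n₀ + n, ?_⟩
      show ((k + p * k * m₀ + p * m : ℤ) : ℂ) * (c / p) + ((k * n₀ + n : ℤ) : ℂ) * (c * (τ' : ℂ)) = x
      have hx : x = k * z₁ + c * ((m : ℂ) + n * (τ' : ℂ)) := by rw [hlx]; ring
      have hz : z₁ = c / p + c * ((m₀ : ℂ) + n₀ * (τ' : ℂ)) := by rw [hlz]; ring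
      rw [hx, hz]
      push_cast
      field_simp
      ring
  refine ⟨mza_la_supPair hc hp.ne_zero τ', hmain, ?_, ?_, ?_⟩
  · intro x hx
    exact (hmain x).2 ⟨0, by simpa using hx⟩
  · exact (hmain z₁).2 ⟨1, by simp⟩
  · intro k hk0 hkp hmem
    -- `k z₁ ∈ L` and `p z₁ ∈ L` with `gcd(k, p) = 1` force `z₁ ∈ L`
    have hcop : IsCoprime (k : ℤ) (p : ℤ) := by
      rw [Nat.isCoprime_iff_coprime]
      exact (Nat.Coprime.symm ((Nat.Prime.coprime_iff_not_dvd hp).2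
        (Nat.not_dvd_of_pos_of_lt hk0 hkp)))
    obtain ⟨u, v, huv⟩ := hcop
    apply hz₁
    have e : z₁ = (u : ℤ) • ((k : ℂ) * z₁) + (v : ℤ) • ((p : ℂ) * z₁) := by
      simp only [zsmul_eq_mul]
      have huv' : (u : ℂ) * k + v * p = 1 := by exact_mod_cast huv
      linear_combination (-z₁) * huv'
    rw [e]
    exact L.lattice.add_mem (L.lattice.smul_mem _ hmem) (L.lattice.smul_mem _ hpz)

end Fermat.Agent.MZ
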